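import Fermat.Agent.Ribet.H944.WallSpec
import Fermat.Agent.S35.H155.B2Geom
import Fermat.Agent.S59.H296.EigenImage
import Fermat.Agent.S17.H197.TorsionFinite
import Fermat.Agent.S29.M1

/-!
# S59 moonshot, cell (C) LO-SQ, leaf TOP-CORE (helper301)

The J-level assembly of board v1 (`origin/helper885:coord/S59-LO-C.md`, §1):

    CoreSq at level `N q`  ⇐  (W0) + NEW-OLD + ALG.

* (W0)     if `pushA x ≠ 0` or `pushB x ≠ 0`, the push-forward is an eigenclass of level `N`
           (`S35.H155.pushA_heckeOperatorBar`);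
* NEW-OLD  a `q`-new, inertia-fixed eigenclass `x` of level `N q` is OLD: `x = pa y + pb y'`
           (the wall; HYPOTHESIS here, `NewOldAt`);
* ALG      an eigenclass in the image of `J₀(N)[p]² → J₀(N q)` has its eigensystem in
           `J₀(N)[p]` (`H296.exists_eigen_of_add_eigen`, helper296; Hecke operators commute:
           `S29.heckeOperatorsCommuteBar`; `J₀(N)[p]` is finite: `S17.H197.torsion_finite'`).

Everything is GENERIC in the two pull-backs `pa pb : J₀(N) → J₀(N q)` (any additive maps which are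
Hecke-equivariant off a finite set `S₀`: `IsPullPair`) and in the neatness predicate, so the
theorems apply to whatever shape of NEW-OLD is frozen in `S59/LoSqC/Spec.lean`.

Conclusion: `Ribet.H944.Wall.Lowered N p S a` (the shape consumed by `H885.loSq_of_core`).
-/

set_option autoImplicit false
set_option linter.style.haveILetI false

open ModularCurve AlgebraicCurve

namespace Fermat.Agent.S59.LoSqC.H301

open Fermat.Agent.Ribet Fermat.Agent.Ribet.Spec Fermat.Agent.Ribet.H944.Wall
open Fermat.Agent.S35.H155 (pushA pushB IsQNew pushA_heckeOperatorBar pushB_heckeOperatorBar)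

/-- A pair of additive maps `J₀(N) → J₀(N q)` which commute with `T_ℓ` for `ℓ ∉ S₀`
(in the application: the two degeneracy pull-backs `α^*`, `β^*`). -/
structure IsPullPair (N q : ℕ) [NeZero N] [NeZero q] (S₀ : Finset ℕ)
    (pa pb : JZero N →+ JZero (N * q)) : Prop where
  hecke_left : ∀ ℓ : Nat.Primes, (ℓ : ℕ) ∉ S₀ → ∀ y : JZero N,
    pa (heckeOperatorBar N ℓ y) = heckeOperatorBar (N * q) ℓ (pa y)
  hecke_right : ∀ ℓ : Nat.Primes, (ℓ : ℕ) ∉ S₀ → ∀ y : JZero N,
    pb (heckeOperatorBar N ℓ y) = heckeOperatorBar (N * q) ℓ (pb y)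

/-- **NEW-OLD** at one level, one place, one eigensystem: a `p`-torsion, `q`-new, inertia-fixed
eigenclass of level `N q` is a sum of two pull-backs of `p`-torsion classes of level `N`. -/
def NewOldAt (N q p : ℕ) [NeZero N] [NeZero q] (P : ValuationSubring (AlgebraicClosure ℚ))
    (S : Finset ℕ) (a : ℕ → ℤ) (pa pb : JZero N →+ JZero (N * q)) : Prop :=
  ∀ x : JZero (N * q), p • x = 0 → IsQNew N q x →
    (∀ τ ∈ P.inertiaSubgroupIn ℚ, τ • x = x) → EigenAt (N * q) S a x →
    ∃ y y' : JZero N, p • y = 0 ∧ p • y' = 0 ∧ x = pa y + pb y'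

/-- `J₀(N)[p]` is finite, in the vocabulary of `H296`. -/
theorem finite_torsionSub (N : ℕ) [NeZero N] {p : ℕ} (hp : p ≠ 0) :
    Finite (Fermat.Agent.S59.H296.torsionSub (JZero N) p) := by
  have h : {x : JZero N | p • x = 0}.Finite := Fermat.Agent.S17.H197.torsion_finite' N p hp
  have hset : ((Fermat.Agent.S59.H296.torsionSub (JZero N) p : AddSubgroup (JZero N)) :
      Set (JZero N)) ⊆ {x : JZero N | p • x = 0} := fun x hx =>
    Fermat.Agent.S59.H296.mem_torsionSub.mp hx
  exact (h.subset hset).to_subtype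

/-- **(W0)** a class of level `N q` which is not `q`-new pushes forward to an eigenclass of
level `N`. -/
theorem occursIn_of_not_isQNew {N q p : ℕ} [NeZero N] [NeZero q] (hq : q.Prime)
    {S : Finset ℕ} {a : ℕ → ℤ} {x : JZero (N * q)} (hpx : p • x = 0)
    (heig : EigenAt (N * q) S a x) (hnew : ¬ IsQNew N q x) :
    OccursIn N p (insert q S) a := by
  have h : pushA N q x ≠ 0 ∨ pushB N q x ≠ 0 := by
    by_contra hcon
    rw [not_or, not_not, not_not] at hcon
    exact hnew ⟨hcon.1, hcon.2⟩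
  rcases h with h | h
  · refine ⟨pushA N q x, h, ?_, fun ℓ hℓ => ?_⟩
    · rw [← map_nsmul, hpx, map_zero]
    · rw [Finset.mem_insert, not_or] at hℓ
      rw [← pushA_heckeOperatorBar N q hq ℓ hℓ.1, heig ℓ hℓ.2, map_zsmul]
  · refine ⟨pushB N q x, h, ?_, fun ℓ hℓ => ?_⟩
    · rw [← map_nsmul, hpx, map_zero]
    · rw [Finset.mem_insert, not_or] at hℓ
      rw [← pushB_heckeOperatorBar N q hq ℓ hℓ.1, heig ℓ hℓ.2, map_zsmul]

/-- **ALG**, J-form: a nonzero eigenclass `x = pa y + pb y'` of level `N q` with `p y = p y' = 0`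
has its eigensystem in `J₀(N)[p]`. -/
theorem occursIn_of_old {N q p : ℕ} [NeZero N] [NeZero q] (hp : p ≠ 0)
    {S S₀ : Finset ℕ} {a : ℕ → ℤ} {pa pb : JZero N →+ JZero (N * q)}
    (hpull : IsPullPair N q S₀ pa pb) {x : JZero (N * q)} (hx : x ≠ 0)
    (heig : EigenAt (N * q) S a x) {y y' : JZero N} (hy : p • y = 0) (hy' : p • y' = 0)
    (hxy : x = pa y + pb y') : OccursIn N p (S ∪ S₀) a := by
  haveI : Finite (Fermat.Agent.S59.H296.torsionSub (JZero N) p) := finite_torsionSub N hp
  have hc : HeckeOperatorsCommuteBar N := Fermat.Agent.S29.heckeOperatorsCommuteBar N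
  obtain ⟨h, hh0, hph, hheig⟩ :=
    Fermat.Agent.S59.H296.exists_eigen_of_add_eigen (ι := {ℓ : Nat.Primes // (ℓ : ℕ) ∉ S ∪ S₀})
      (J := JZero N) (V := JZero (N * q)) p
      (fun i => (heckeOperatorBar N i.1).toAddMonoidHom)
      (fun i => (heckeOperatorBar (N * q) i.1).toAddMonoidHom)
      (fun i j z => by
        have := LinearMap.congr_fun (hc i.1 j.1) z
        simp only [Module.End.mul_apply] at this
        exact this)
      pa pb
      (fun i z => hpull.hecke_left i.1 (fun h' => i.2 (Finset.mem_union_right _ h')) z)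
      (fun i z => hpull.hecke_right i.1 (fun h' => i.2 (Finset.mem_union_right _ h')) z)
      (fun i => a i.1) hx hy hy' hxy
      (fun i => heig i.1 (fun h' => i.2 (Finset.mem_union_left _ h')))
  exact ⟨h, hh0, hph, fun ℓ hℓ => hheig ⟨ℓ, hℓ⟩⟩

/-- **TOP-CORE at one level**: (W0) + NEW-OLD + ALG ⟹ the eigensystem is lowered to level `N`. -/
theorem lowered_of_newOldAt {N q p : ℕ} [NeZero N] [NeZero q] (hq : q.Prime) (hp : p ≠ 0)
    (P : ValuationSubring (AlgebraicClosure ℚ)) {S S₀ : Finset ℕ} {a : ℕ → ℤ}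
    {pa pb : JZero N →+ JZero (N * q)} (hpull : IsPullPair N q S₀ pa pb)
    (hNO : NewOldAt N q p P S a pa pb)
    {x : JZero (N * q)} (hx : x ≠ 0) (hpx : p • x = 0) (heig : EigenAt (N * q) S a x)
    (hfix : ∀ τ ∈ P.inertiaSubgroupIn ℚ, τ • x = x) : Lowered N p S a := by
  by_cases hnew : IsQNew N q x
  · obtain ⟨y, y', hy, hy', hxy⟩ := hNO x hpx hnew hfix heig
    exact ⟨S ∪ S₀, Finset.subset_union_left,
      Or.inl (occursIn_of_old hp hpull hx heig hy hy' hxy)⟩
  · exact ⟨insert q S, Finset.subset_insert q S,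
      Or.inl (occursIn_of_not_isQNew hq hpx heig hnew)⟩

/-! ## Statement level -/

/-- **NEW-OLD** at all levels satisfying `Neat` (e.g. `Eng.NeatFor`), local shape: existence of
a pull pair with `NewOldAt` for every place over `q` and every non-Eisenstein eigensystem. -/
def NewOldStatement (Neat : ℕ → ℕ → Prop) : Prop :=
  ∀ (N q p : ℕ) [NeZero N] [NeZero q], q.Prime → N.factorization q = 1 → p.Prime → p ≠ 2 →
    p ≠ q → Neat N q →
    ∃ (S₀ : Finset ℕ) (pa pb : JZero N →+ JZero (N * q)), IsPullPair N q S₀ pa pb ∧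
      ∀ P : ValuationSubring (AlgebraicClosure ℚ), P.LiesOverPrime q →
        ∀ (S : Finset ℕ) (a : ℕ → ℤ), NonEisAway p a → NewOldAt N q p P S a pa pb

/-- **CORE-SQ at the levels satisfying `Neat`** (`H885.CoreSqStatement` with the extra
hypothesis `Neat N q`; for `Neat := fun _ _ => True` it is `H885.CoreSqStatement` verbatim). -/
def CoreSqNeatStatement (Neat : ℕ → ℕ → Prop) : Prop :=
  ∀ (N q p : ℕ) [NeZero N] [NeZero q], q.Prime → N.factorization q = 1 → p.Prime → p ≠ 2 →
    p ≠ q → Neat N q →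
    ∀ P : ValuationSubring (AlgebraicClosure ℚ), P.LiesOverPrime q →
    ∀ (S : Finset ℕ) (a : ℕ → ℤ), NonEisAway p a →
    ∀ x : JZero (N * q), x ≠ 0 → p • x = 0 → EigenAt (N * q) S a x →
      (∀ τ ∈ P.inertiaSubgroupIn ℚ, τ • x = x) → Lowered N p S a

/-- **TOP-CORE.** -/
theorem coreSqNeat_of_newOld (Neat : ℕ → ℕ → Prop) (h : NewOldStatement Neat) :
    CoreSqNeatStatement Neat := by
  intro N q p _ _ hq hfac hp hp2 hpq hneat P hP S a ha x hx hpx heig hfix
  obtain ⟨S₀, pa, pb, hpull, hNO⟩ := h N q p hq hfac hp hp2 hpq hneat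
  exact lowered_of_newOldAt hq hp.ne_zero P hpull (hNO P hP S a ha) hx hpx heig hfix

end Fermat.Agent.S59.LoSqC.H301
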